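import Fermat.Agent.MeyerNF.Local
import Fermat.Agent.QuaternionNF.Existence

/-!
# Meyer's theorem over number fields
-/

set_option autoImplicit false
set_option linter.style.haveILetI false

noncomputable section

universe u

open NumberField IsDedekindDomain Finset Matrix
open FA.QuadForms (Isotropic isotropic_option_iff)
open FA.QuadFormsNF FA.QuaternionNF
open scoped Classical

namespace Fermat.Agent.MeyerNF

variable {K : Type u} [Field K] [NumberField K]

/-- From five variables on every completion gives a zero. -/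
theorem isotropic_completion {ι : Type*} [Fintype ι] (h5 : 5 ≤ Fintype.card ι) (a : ι → K)
    (v : HeightOneSpectrum (𝓞 K)) :
    Isotropic fun i => algebraMap K (v.adicCompletion K) (a i) := by
  by_cases h : ∃ i, a i = 0
  · obtain ⟨i, hi⟩ := h
    exact Isotropic.of_eq_zero (i := i) (by rw [hi, map_zero])
  push Not at h
  obtain ⟨e⟩ : Nonempty (Fin 5 ↪ ι) :=
    Function.Embedding.nonempty_of_card_le (by simpa using h5)
  exact Isotropic.of_injective e e.injective (isotropic_five_completion v _ fun i => h (e i))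

/-- A real diagonal form has a zero iff it takes both signs. -/
theorem isotropic_real_iff {ι : Type*} [Fintype ι] [Nontrivial ι] (b : ι → ℝ) :
    Isotropic b ↔ ∃ i j, 0 ≤ b i ∧ b j ≤ 0 := by
  constructor
  · rintro ⟨x, hx, he⟩
    obtain ⟨i₀, hi₀⟩ : ∃ i, x i ≠ 0 := Function.ne_iff.1 hx
    refine exists_comm.1 ?_
    by_contra hn
    push Not at hn
    by_cases hneg : ∃ j, b j ≤ 0
    · obtain ⟨j, hj⟩ := hneg
      have hall : ∀ i, b i < 0 := fun i => lt_of_not_ge fun h => (hn j i h).not_ge hj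
      have : ∑ i, b i * x i ^ 2 < 0 := Finset.sum_neg' (fun i _ =>
        mul_nonpos_of_nonpos_of_nonneg (hall i).le (sq_nonneg _))
        ⟨i₀, mem_univ _, mul_neg_of_neg_of_pos (hall i₀) (by positivity)⟩
      linarith
    · push Not at hneg
      have : 0 < ∑ i, b i * x i ^ 2 := Finset.sum_pos' (fun i _ =>
        mul_nonneg (hneg i).le (sq_nonneg _)) ⟨i₀, mem_univ _, mul_pos (hneg i₀) (by positivity)⟩
      linarith
  · rintro ⟨i, j, hi, hj⟩
    by_cases hz : ∃ k, b k = 0
    · obtain ⟨k, hk⟩ := hz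
      exact Isotropic.of_eq_zero hk
    push Not at hz
    have hi' := lt_of_le_of_ne hi (hz i).symm
    have hj' := lt_of_le_of_ne hj (hz j)
    have hij : i ≠ j := fun e => by rw [e] at hi'; linarith
    refine Isotropic.of_injective ![i, j] ?_ ⟨![Real.sqrt (-b j), Real.sqrt (b i)], fun e => ?_, ?_⟩
    · intro p q
      fin_cases p <;> fin_cases q <;> simp [hij, Ne.symm hij]
    · have := congrFun e 1
      simp [Real.sqrt_eq_zero hi'.le, hz i] at this
    · simp [Fin.sum_univ_two, Real.sq_sqrt hi'.le, Real.sq_sqrt (by linarith : 0 ≤ -b j)]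
      ring

/-- **Meyer's theorem**, diagonal forms. -/
theorem isotropic_five_iff {ι : Type*} [Fintype ι] (h5 : 5 ≤ Fintype.card ι) (a : ι → K) :
    Isotropic a ↔ ∀ φ : K →+* ℝ, ∃ i j, 0 ≤ φ (a i) ∧ φ (a j) ≤ 0 := by
  haveI : Nontrivial ι := Fintype.one_lt_card_iff_nontrivial.1 (by omega)
  rw [isotropic_iff_local, LocallyIsotropic, and_iff_right (isotropic_completion h5 a)]
  exact forall_congr' fun φ => isotropic_real_iff _

/-- **Meyer's theorem**, any matrix. -/
theorem matrix_isotropic_five_iff {n : Type*} [Fintype n] [DecidableEq n]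
    (h5 : 5 ≤ Fintype.card n) (M : Matrix n n K) :
    (∃ x : n → K, x ≠ 0 ∧ x ⬝ᵥ M *ᵥ x = 0) ↔
      ∀ φ : K →+* ℝ, ∃ x : n → ℝ, x ≠ 0 ∧ x ⬝ᵥ (M.map φ) *ᵥ x = 0 := by
  obtain ⟨d, w, P, R, hRP, hPR, hM⟩ := exists_diagonalisation_NF M
  have hd : 5 ≤ Fintype.card (Fin d) := by
    have := Matrix.square_of_invertible P R hPR hRP
    omega
  have h0 : (∃ x : n → K, x ≠ 0 ∧ x ⬝ᵥ M *ᵥ x = 0) ↔ Isotropic w := by
    have h := matrixIsotropicAt_iff hRP hPR hM (RingHom.id K) two_ne_zero
    unfold MatrixIsotropicAt at h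
    simpa using h
  rw [h0, isotropic_iff_local, LocallyIsotropic, and_iff_right (isotropic_completion hd w)]
  exact forall_congr' fun φ => (matrixIsotropicAt_iff hRP hPR hM φ two_ne_zero).symm

/-- Four variables represent a number iff they do at the real embeddings. -/
theorem representation_four_iff {ι : Type*} [Fintype ι] (h4 : 4 ≤ Fintype.card ι) {a : ι → K}
    (ha : ∀ i, a i ≠ 0) {q : K} (hq : q ≠ 0) :
    (∃ x : ι → K, ∑ i, a i * x i ^ 2 = q) ↔
      ∀ φ : K →+* ℝ, ∃ i, 0 < φ (a i) * φ q := by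
  have h5 : 5 ≤ Fintype.card (Option ι) := by rw [Fintype.card_option]; omega
  rw [← isotropic_option_iff ha, isotropic_five_iff h5]
  refine forall_congr' fun φ => ?_
  have hφq : φ q ≠ 0 := (map_ne_zero φ).2 hq
  obtain ⟨i₀⟩ : Nonempty ι := Fintype.card_pos_iff.1 (by omega)
  constructor
  · rintro ⟨o, o', ho, ho'⟩
    rcases lt_or_gt_of_ne hφq with h | h
    · cases o' with
      | none => simp only [Option.elim, map_neg] at ho'; linarith
      | some i => exact ⟨i, mul_pos_of_neg_of_neg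
          (lt_of_le_of_ne ho' ((map_ne_zero φ).2 (ha i))) h⟩
    · cases o with
      | none => simp only [Option.elim, map_neg] at ho; linarith
      | some i => exact ⟨i, mul_pos (lt_of_le_of_ne ho ((map_ne_zero φ).2 (ha i)).symm) h⟩
  · rintro ⟨i, hi⟩
    rcases lt_or_gt_of_ne hφq with h | h
    · exact ⟨none, some i, by simp [h.le], (neg_of_mul_pos_left hi h.le).le⟩
    · exact ⟨some i, none, (pos_of_mul_pos_left hi h.le).le, by simp [h.le]⟩

/-- **An anisotropic quaternary form in every number field.** -/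
theorem exists_anisotropic_four :
    ∃ a : Fin 4 → K, (∀ i, a i ≠ 0) ∧ ∀ x : Fin 4 → K, ∑ i, a i * x i ^ 2 = 0 → x = 0 := by
  obtain ⟨v, w, hvw⟩ : ∃ v w : HeightOneSpectrum (𝓞 K), v ≠ w := by
    have hp : ∀ p : ℕ, p.Prime → ∃ v : HeightOneSpectrum (𝓞 K), (p : 𝓞 K) ∈ v.asIdeal := by
      intro p hp
      have hne : Ideal.span {(p : 𝓞 K)} ≠ ⊤ := fun h => by
        have h1 : IsUnit (algebraMap ℤ (𝓞 K) (p : ℤ)) := by
          rw [map_natCast]; exact Ideal.span_singleton_eq_top.1 h
        have h2 := h1.map (Algebra.norm ℤ (S := 𝓞 K))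
        rw [Algebra.norm_algebraMap, Int.isUnit_iff_natAbs_eq, Int.natAbs_pow,
          Int.natAbs_natCast, pow_eq_one_iff] at h2
        exact h2.elim hp.ne_one Module.finrank_pos.ne'
      obtain ⟨P, hP, hle⟩ := Ideal.exists_le_maximal _ hne
      have hmem : (p : 𝓞 K) ∈ P := hle (Ideal.mem_span_singleton_self _)
      refine ⟨⟨P, hP.isPrime, fun h => ?_⟩, hmem⟩
      rw [h, Ideal.mem_bot] at hmem
      exact Nat.cast_ne_zero.2 hp.ne_zero hmem
    obtain ⟨v, hv⟩ := hp 2 Nat.prime_two
    obtain ⟨w, hw⟩ := hp 3 Nat.prime_three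
    refine ⟨v, w, fun e => v.isPrime.ne_top ((Ideal.eq_top_iff_one _).2 ?_)⟩
    rw [← e] at hw
    have := v.asIdeal.sub_mem hw hv
    norm_num at this
    exact this
  obtain ⟨a, b, ha, hb, hS, -⟩ := exists_prescribed {v, w} (∅ : Finset (K →+* ℝ))
    (by simp [hvw])
  refine ⟨![1, -a, -b, a * b], fun i => by fin_cases i <;> simp [ha, hb], fun x hx => ?_⟩
  by_contra hne
  obtain ⟨s, t, hst⟩ := exists_conic_of_norm_zero ha hb (r := x 0) (x := x 1) (y := x 2) (z := x 3)
    (by
      by_contra hn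
      push Not at hn
      exact hne (funext fun i => by fin_cases i <;> simp [hn.1, hn.2.1, hn.2.2.1, hn.2.2.2]))
    (by simp [Fin.sum_univ_four] at hx; linear_combination hx)
  refine ((hS v).2 (by simp)) ⟨algebraMap K _ s, algebraMap K _ t, ?_⟩
  rw [← map_pow, ← map_pow, ← map_mul, ← map_mul, ← map_add, hst, map_one]

end Fermat.Agent.MeyerNF
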