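import Fermat.Agent.QuaternionNF.Local

/-!
# Five variables at one prime

If a form in five variables with coefficients in `K` has no zero in a completion, then for any
partition into two pairs and a single variable the two binary forms have no value in common with
opposite sign.  The groups of the pairs are then one subgroup `N` of index two without `-1`, and a
natural number outside `N` after one inside shows that `-1` lies in `N + N`, a contradiction.
-/

set_option autoImplicit false
set_option linter.style.haveILetI false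

noncomputable section

universe u

open NumberField IsDedekindDomain
open FA.HasseCyclic (exists_form_eq exists_conic_point)
open FA.QuadForms (Isotropic)
open FA.QuadFormsNF FA.QuaternionNF

namespace Fermat.Agent.MeyerNF

/-- Two subgroups of index at most two whose cosets `g N` and `M` are disjoint. -/
theorem eq_of_disjoint_coset {G : Type*} [CommGroup G] {N M : Subgroup G}
    (hN : N = ⊤ ∨ N.index = 2) (hM : M = ⊤ ∨ M.index = 2) {g : G} (h : ∀ m ∈ N, g * m ∉ M) :
    N = M ∧ N.index = 2 ∧ g ∉ N := by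
  have hgM : g ∉ M := by simpa using h 1 (one_mem N)
  have hM2 : M.index = 2 := hM.resolve_left fun e => hgM (e ▸ Subgroup.mem_top g)
  have hle : N ≤ M := fun m hm => by
    by_contra hm'
    exact h m hm ((Subgroup.mul_mem_iff_of_index_two hM2).2 (iff_of_false hgM hm'))
  have hgN : g ∉ N := fun hg => hgM (hle hg)
  have hN2 : N.index = 2 := hN.resolve_left fun e => hgN (e ▸ Subgroup.mem_top g)
  refine ⟨le_antisymm hle (Subgroup.relIndex_eq_one.1 ?_), hN2, hgN⟩
  have := Subgroup.relIndex_mul_index hle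
  rw [hN2, hM2] at this
  omega

theorem two_disjoint_pairs : ∀ i k : Fin 5, i ≠ k →
    ∃ j l : Fin 5, Function.Injective ![i, j, k, l] := by
  unfold Function.Injective
  decide

theorem pair_cases : ∀ i j : Fin 5, i ≠ j →
    (Function.Injective ![i, j, 0, 1]) ∨ ∃ k l : Fin 5, Function.Injective ![i, j, k, l] ∧
      Function.Injective ![(0 : Fin 5), 1, k, l] := by
  unfold Function.Injective
  decide

variable {K : Type u} [Field K] [NumberField K]

omit [NumberField K] in
/-- Two binary forms with opposite values. -/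
theorem isotropic_of_values {F : Type*} [Field F] [CharZero F] {f : K →+* F} {a : Fin 5 → K}
    {i j k l : Fin 5} (hinj : Function.Injective ![i, j, k, l]) (ha : ∀ i, a i ≠ 0) {c : K}
    (hc : c ≠ 0) (h1 : SplitsAt f (-(a i * a j)) (c / a i))
    (h2 : SplitsAt f (-(a k * a l)) (-c / a k)) : Isotropic fun i => f (a i) := by
  obtain ⟨x, y, hxy⟩ := h1
  obtain ⟨p, q, hpq⟩ := exists_form_eq two_ne_zero hxy
  obtain ⟨x', y', hxy'⟩ := h2
  obtain ⟨p', q', hpq'⟩ := exists_form_eq two_ne_zero hxy'
  have hi : f (a i) ≠ 0 := (map_ne_zero f).2 (ha i)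
  have hk : f (a k) ≠ 0 := (map_ne_zero f).2 (ha k)
  have e1 : f (a i) * p ^ 2 + f (a j) * (f (a i) * q) ^ 2 = f c := by
    rw [map_neg, map_mul, map_div₀, eq_div_iff hi] at hpq
    linear_combination hpq
  have e2 : f (a k) * p' ^ 2 + f (a l) * (f (a k) * q') ^ 2 = -f c := by
    rw [map_neg, map_mul, map_div₀, map_neg, eq_div_iff hk] at hpq'
    linear_combination hpq'
  refine Isotropic.of_injective ![i, j, k, l] hinj
    ⟨![p, f (a i) * q, p', f (a k) * q'], fun e => ?_, ?_⟩
  · have h0 := congrFun e 0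
    have h1 := congrFun e 1
    simp only [Matrix.cons_val_zero, Matrix.cons_val_one, Pi.zero_apply] at h0 h1
    rw [h0, h1] at e1
    exact (map_ne_zero f).2 hc (by linear_combination -e1)
  · simp only [Fin.sum_univ_four, Matrix.cons_val_zero, Matrix.cons_val_one, Matrix.cons_val]
    linear_combination e1 + e2

omit [NumberField K] in
/-- The same with a fifth variable. -/
theorem isotropic_of_three_values {F : Type*} [Field F] [CharZero F] {f : K →+* F} {a : Fin 5 → K}
    {m n : K} (h1 : SplitsAt f (-(a 0 * a 1)) m)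
    (h2 : SplitsAt f (-(a 2 * a 3)) n) (h : a 0 * m + a 2 * n + a 4 = 0) :
    Isotropic fun i => f (a i) := by
  obtain ⟨x, y, hxy⟩ := h1
  obtain ⟨p, q, hpq⟩ := exists_form_eq two_ne_zero hxy
  obtain ⟨x', y', hxy'⟩ := h2
  obtain ⟨p', q', hpq'⟩ := exists_form_eq two_ne_zero hxy'
  rw [map_neg, map_mul] at hpq hpq'
  have h' := congrArg f h
  rw [map_add, map_add, map_mul, map_mul, map_zero] at h'
  refine ⟨![p, f (a 0) * q, p', f (a 2) * q', 1],
    fun e => by simpa using congrFun e (4 : Fin 5), ?_⟩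
  simp only [Fin.sum_univ_five, Matrix.cons_val_zero, Matrix.cons_val_one, Matrix.cons_val]
  linear_combination h' + f (a 0) * hpq + f (a 2) * hpq'

/-- Near `-1` there is a natural number. -/
theorem exists_natCast_split_neg (v : HeightOneSpectrum (𝓞 K)) (d : K) :
    ∃ m : ℕ, m ≠ 0 ∧ SplitsAt (algebraMap K (v.adicCompletion K)) d (-(m : K)) := by
  set g := algebraMap K (v.adicCompletion K)
  obtain ⟨U, hU, hUsq⟩ := exists_isSquare_mul_near v
    (neg_ne_zero.2 (one_ne_zero (α := v.adicCompletion K)))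
  obtain ⟨k, hk⟩ := exists_exp_subset v hU
  obtain ⟨N, hN0, hN⟩ := exists_natCast_mem {v}
  have hNv := hN v (Finset.mem_singleton_self v)
  have hm : ((N ^ k - 1 : ℕ) : K) - -1 = (N : K) ^ k := by
    rw [sub_neg_eq_add, ← Nat.cast_add_one,
      Nat.sub_add_cancel (Nat.one_le_pow _ _ (Nat.pos_of_ne_zero hN0)), Nat.cast_pow]
  have hval : Valued.v (g ((N ^ k - 1 : ℕ) : K) - -1) ≤ WithZero.exp (-(k : ℤ)) := by
    rw [show (-1 : v.adicCompletion K) = g (-1) by rw [map_neg, map_one], ← map_sub, hm,
      valued_algebraMap, map_pow]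
    have h1 : v.valuation K (N : K) ≤ WithZero.exp (-(1 : ℤ)) := by
      rw [← map_natCast (algebraMap (𝓞 K) K), v.valuation_of_algebraMap]
      exact (v.intValuation_le_pow_iff_mem _ 1).2 (by rwa [pow_one])
    refine (pow_le_pow_left₀ zero_le h1 k).trans ?_
    rw [← WithZero.exp_nsmul]
    simp
  obtain ⟨s, hs0, hs⟩ := hUsq _ (hk _ hval)
  refine ⟨N ^ k - 1, fun h0 => ?_, 0, 1 / s, ?_⟩
  · rw [h0, Nat.cast_zero, map_zero] at hs
    exact pow_ne_zero 2 hs0 (by linear_combination hs)
  · rw [map_neg, hs]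
    field_simp
    ring

/-- **Every form in five variables has a zero in every completion.** -/
theorem isotropic_five_completion (v : HeightOneSpectrum (𝓞 K)) (a : Fin 5 → K)
    (ha : ∀ i, a i ≠ 0) : Isotropic fun i => algebraMap K (v.adicCompletion K) (a i) := by
  haveI := charZero_completion v
  set f := algebraMap K (v.adicCompletion K)
  classical
  by_contra hiso
  choose N hN hidx using fun i j : Fin 5 =>
    exists_splitGroup v (neg_ne_zero.2 (mul_ne_zero (ha i) (ha j)))
  let u : Fin 5 → Kˣ := fun i => Units.mk0 (a i) (ha i)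
  have hdis : ∀ i j k l : Fin 5, Function.Injective ![i, j, k, l] →
      N i j = N k l ∧ (N i j).index = 2 ∧ -(u i / u k) ∉ N i j := fun i j k l hinj => by
    refine eq_of_disjoint_coset (hidx i j) (hidx k l) fun m hm hm' => hiso ?_
    refine isotropic_of_values (c := a i * (m : K)) hinj ha (mul_ne_zero (ha i) m.ne_zero) ?_ ?_
    · simpa [ha i] using (hN i j m).1 hm
    · have := (hN k l _).1 hm'
      rw [Units.val_mul, Units.val_neg, Units.val_div_eq_div_val] at this
      convert this using 1
      simp only [u, Units.val_mk0]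
      ring
  set H := N 0 1 with hH
  have hall : ∀ i j, i ≠ j → N i j = H := fun i j hij => by
    rcases pair_cases i j hij with h | ⟨k, l, h1, h2⟩
    · exact (hdis _ _ _ _ h).1
    · exact (hdis _ _ _ _ h1).1.trans (hdis _ _ _ _ h2).1.symm
  obtain ⟨j₀, l₀, h02⟩ := two_disjoint_pairs 0 2 (by decide)
  have hidx2 : H.index = 2 := by
    rw [← hall 0 j₀ (fun e => absurd (h02 (a₁ := 0) (a₂ := 1) (by simpa using e)) (by decide))]
    exact (hdis _ _ _ _ h02).2.1
  have hrel : ∀ i k, i ≠ k → -(u i / u k) ∉ H := fun i k hik => by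
    obtain ⟨j, l, h⟩ := two_disjoint_pairs i k hik
    rw [← hall i j fun e => absurd (h (a₁ := 0) (a₂ := 1) (by simpa using e)) (by decide)]
    exact (hdis _ _ _ _ h).2.2
  have hmul := fun {x y : Kˣ} => Subgroup.mul_mem_iff_of_index_two hidx2 (a := x) (b := y)
  have h02' : u 0 / u 2 ∈ H := by
    have := hmul.2 (iff_of_false (hrel 0 1 (by decide)) (hrel 1 2 (by decide)))
    rwa [neg_mul_neg, div_mul_div_cancel] at this
  have hneg : (-1 : Kˣ) ∉ H := fun h => hrel 0 2 (by decide) (by
    rw [← neg_one_mul]; exact mul_mem h h02')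
  have hmemH : ∀ x : Kˣ, x ∈ H ↔ SplitsAt f (-(a 0 * a 1)) (x : K) := hN 0 1
  have hex : ∃ m : ℕ, m ≠ 0 ∧ ¬ SplitsAt f (-(a 0 * a 1)) (m : K) := by
    obtain ⟨m, hm0, hm⟩ := exists_natCast_split_neg v (-(a 0 * a 1))
    refine ⟨m, hm0, fun hm' => hneg ?_⟩
    have h1 : Units.mk0 (m : K) (Nat.cast_ne_zero.2 hm0) ∈ H := (hmemH _).2 hm'
    have h2 : -Units.mk0 (m : K) (Nat.cast_ne_zero.2 hm0) ∈ H := (hmemH _).2 hm
    simpa [div_eq_mul_inv] using div_mem h2 h1
  obtain ⟨hm0, hm⟩ := Nat.find_spec hex
  set m := Nat.find hex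
  have hm1 : m ≠ 1 := fun e => hm (by rw [e]; exact ⟨0, 1, by simp⟩)
  have hpred : SplitsAt f (-(a 0 * a 1)) ((m - 1 : ℕ) : K) := by
    by_contra hc
    exact Nat.find_min hex (show m - 1 < m by omega) ⟨by omega, hc⟩
  set um : Kˣ := Units.mk0 (m : K) (Nat.cast_ne_zero.2 hm0)
  set up : Kˣ := Units.mk0 ((m - 1 : ℕ) : K) (Nat.cast_ne_zero.2 (by omega))
  have hum : -um ∈ H := by
    rw [← neg_one_mul]
    exact hmul.2 (iff_of_false hneg fun h => hm ((hmemH um).1 h))
  have hup : up ∈ H := (hmemH up).2 hpred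
  have ht : u 4 / u 0 ∈ H := by
    have := hmul.2 (iff_of_false hneg (hrel 4 0 (by decide)))
    simpa using this
  set t : Kˣ := (u 4 / u 0) / -um with ht'
  have htH : t ∈ H := div_mem ht hum
  refine hiso (isotropic_of_three_values (m := ((t * up : Kˣ) : K))
    (n := ((t * (u 0 / u 2) : Kˣ) : K)) ((hmemH _).1 (mul_mem htH hup)) ?_ ?_)
  · have := mul_mem htH h02'
    rw [← hall 2 3 (by decide)] at this
    exact (hN 2 3 _).1 this
  · simp only [ht', u, um, up, Units.val_mul, Units.val_div_eq_div_val, Units.val_neg, Units.val_mk0]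
    have h0 := ha 0
    have h2 := ha 2
    have hmK : (m : K) ≠ 0 := Nat.cast_ne_zero.2 hm0
    rw [Nat.cast_sub (by omega : 1 ≤ m)]
    field_simp
    push_cast
    ring

end Fermat.Agent.MeyerNF
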